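/-
helper80 (P-ELL, WP-EC2).  Exact projective heights over `RatFunc k`, by gcd / degree arguments
in `k[X]`.

* `ratHeight f = max (deg num f) (deg denom f)`;
* `projHeight z` for a vector `z : ι → RatFunc k`: `0` for `z = 0`, otherwise the maximal degree
  of a primitive polynomial representative of the projective point `z`;
* `projHeight_smul`, `projHeight_pair`, ...;
* the Gauss lemma `projHeight_sym2`;
* exact behaviour under morphisms given by homogeneous polynomials without common zero
  (in the form of a Nullstellensatz certificate with constant coefficients) `projHeight_eval_eq`.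
-/
import Mathlib

set_option autoImplicit false

namespace Fermat.Agent.Lib.EC

open Polynomial

section PrimVec

variable {k : Type*} [Field k] {ι : Type*}

/-- A vector of polynomials is primitive if its entries have no common non-unit divisor
(in particular it is nonzero). -/
def IsPrimVec (w : ι → k[X]) : Prop := ∀ d : k[X], (∀ i, d ∣ w i) → IsUnit d

theorem IsPrimVec.ne_zero {w : ι → k[X]} (hw : IsPrimVec w) : w ≠ 0 := by
  rintro rfl
  exact not_isUnit_zero (hw 0 fun i => dvd_zero _)

theorem IsPrimVec.exists_ne_zero {w : ι → k[X]} (hw : IsPrimVec w) : ∃ i, w i ≠ 0 := by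
  by_contra h
  push Not at h
  exact hw.ne_zero (funext h)

/-- Multiplying a primitive vector by a unit gives a primitive vector. -/
theorem IsPrimVec.unit_mul {w : ι → k[X]} (hw : IsPrimVec w) {u : k[X]} (hu : IsUnit u) :
    IsPrimVec fun i => u * w i := by
  intro d hd
  apply hw d
  intro i
  exact (hu.dvd_mul_left).1 (hd i)

/-- If `b` divides `a * w i` for all `i` and `w` is primitive then `b` divides `a`. -/
theorem IsPrimVec.dvd_of_dvd_mul {w : ι → k[X]} (hw : IsPrimVec w) :
    ∀ (b a : k[X]), (∀ i, b ∣ a * w i) → b ∣ a := by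
  intro b
  induction b using UniqueFactorizationMonoid.induction_on_prime with
  | h₁ =>
    intro a h
    obtain ⟨i, hi⟩ := hw.exists_ne_zero
    have := zero_dvd_iff.1 (h i)
    rcases mul_eq_zero.1 this with h0 | h0
    · rw [h0]
    · exact absurd h0 hi
  | h₂ x hx =>
    intro a _
    exact hx.dvd
  | h₃ b' π hb' hπ ih =>
    intro a h
    have h1 : b' ∣ a := ih a fun i => (dvd_mul_left b' π).trans (h i)
    obtain ⟨a', rfl⟩ := h1
    have h2 : ∀ i, π ∣ a' * w i := by
      intro i
      have := h i
      rw [mul_comm π b', mul_assoc] at this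
      exact (mul_dvd_mul_iff_left hb').1 this
    have h3 : π ∣ a' := by
      by_contra hna
      have : ∀ i, π ∣ w i := fun i => (hπ.dvd_or_dvd (h2 i)).resolve_left hna
      exact hπ.not_isUnit (hw π this)
    rw [mul_comm π b']
    exact mul_dvd_mul_left b' h3

/-- Two primitive vectors which are proportional (over `k[X]`) differ by a unit. -/
theorem IsPrimVec.exists_unit_of_mul_eq {w w' : ι → k[X]} (hw : IsPrimVec w)
    (hw' : IsPrimVec w') {a b : k[X]} (ha : a ≠ 0) (hb : b ≠ 0)
    (h : ∀ i, a * w i = b * w' i) : ∃ u : k[X], IsUnit u ∧ ∀ i, w' i = u * w i := by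
  have h1 : b ∣ a := hw.dvd_of_dvd_mul b a fun i => ⟨w' i, h i⟩
  have h2 : a ∣ b := hw'.dvd_of_dvd_mul a b fun i => ⟨w i, (h i).symm⟩
  obtain ⟨u, rfl⟩ := h1
  have hu : IsUnit u := by
    obtain ⟨v, hv⟩ := h2
    have : b * 1 = b * (u * v) := by rw [mul_one, ← mul_assoc, ← hv]
    exact IsUnit.of_mul_eq_one v (mul_left_cancel₀ hb this).symm
  refine ⟨u, hu, fun i => ?_⟩
  have := h i
  rw [mul_assoc] at this
  exact (mul_left_cancel₀ hb this).symm

/-- The degrees of the entries of proportional primitive vectors agree. -/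
theorem IsPrimVec.natDegree_eq_of_mul_eq {w w' : ι → k[X]} (hw : IsPrimVec w)
    (hw' : IsPrimVec w') {a b : k[X]} (ha : a ≠ 0) (hb : b ≠ 0)
    (h : ∀ i, a * w i = b * w' i) (i : ι) : (w' i).natDegree = (w i).natDegree := by
  obtain ⟨u, hu, hu'⟩ := hw.exists_unit_of_mul_eq hw' ha hb h
  rw [hu' i]
  obtain ⟨c, hc, rfl⟩ := Polynomial.isUnit_iff.1 hu
  by_cases hwi : w i = 0
  · simp [hwi]
  · rw [natDegree_C_mul (hc.ne_zero)]

end PrimVec

section ProjHeight

variable {k : Type*} [Field k] {ι : Type*} [Fintype ι]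

local notation "φ" => algebraMap k[X] (RatFunc k)

/-- Every nonzero vector over `RatFunc k` is a scalar multiple of a primitive polynomial
vector. -/
theorem exists_primVec_rep (z : ι → RatFunc k) (hz : z ≠ 0) :
    ∃ (c : RatFunc k) (w : ι → k[X]), c ≠ 0 ∧ IsPrimVec w ∧ ∀ i, z i = c * φ (w i) := by
  classical
  let _ : NormalizedGCDMonoid k[X] := UniqueFactorizationMonoid.toNormalizedGCDMonoid _
  obtain ⟨i₀, hi₀⟩ : ∃ i, z i ≠ 0 := by
    by_contra h
    push Not at h
    exact hz (funext h)
  have hne : (Finset.univ : Finset ι).Nonempty := ⟨i₀, Finset.mem_univ _⟩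
  set D : k[X] := ∏ i, (z i).denom with hD
  have hD0 : D ≠ 0 := Finset.prod_ne_zero_iff.2 fun i _ => RatFunc.denom_ne_zero _
  set u : ι → k[X] := fun i => (z i).num * ∏ j ∈ Finset.univ.erase i, (z j).denom with hu
  have hzu : ∀ i, z i * φ D = φ (u i) := by
    intro i
    have h1 : D = (z i).denom * ∏ j ∈ Finset.univ.erase i, (z j).denom :=
      (Finset.mul_prod_erase Finset.univ (fun j => (z j).denom) (Finset.mem_univ i)).symm
    have h2 : φ (z i).denom ≠ 0 :=
      (map_ne_zero_iff _ (RatFunc.algebraMap_injective k)).2 (RatFunc.denom_ne_zero _)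
    have h3 : z i * φ (z i).denom = φ (z i).num := by
      have h4 := RatFunc.num_div_denom (z i)
      rw [div_eq_iff h2] at h4
      exact h4.symm
    rw [h1, hu]
    simp only [map_mul]
    rw [← mul_assoc, h3]
  obtain ⟨g, hg1, hg2⟩ := Finset.extract_gcd u hne
  set G : k[X] := Finset.univ.gcd u with hG
  have hG0 : G ≠ 0 := by
    intro h0
    have h1 := hg1 i₀ (Finset.mem_univ _)
    rw [h0, zero_mul] at h1
    have h2 : (z i₀).num = 0 := by
      rcases mul_eq_zero.1 h1 with h | h
      · exact h
      · exact absurd h (Finset.prod_ne_zero_iff.2 fun j _ => RatFunc.denom_ne_zero _)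
    exact hi₀ (RatFunc.num_eq_zero_iff.1 h2)
  have hφD : φ D ≠ 0 := (map_ne_zero_iff _ (RatFunc.algebraMap_injective k)).2 hD0
  have hφG : φ G ≠ 0 := (map_ne_zero_iff _ (RatFunc.algebraMap_injective k)).2 hG0
  refine ⟨φ G / φ D, g, div_ne_zero hφG hφD, ?_, fun i => ?_⟩
  · intro d hd
    have : d ∣ Finset.univ.gcd g := Finset.dvd_gcd fun i _ => hd i
    rw [hg2] at this
    exact isUnit_of_dvd_one this
  · have h1 := hzu i
    rw [hg1 i (Finset.mem_univ _), map_mul] at h1
    rw [div_mul_eq_mul_div, eq_div_iff hφD, h1]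

open scoped Classical in
/-- The exact projective height of a vector over `RatFunc k`: `0` for the zero vector, otherwise
the maximal degree of the entries of a primitive polynomial representative. -/
noncomputable def projHeight (z : ι → RatFunc k) : ℕ :=
  if hz : z = 0 then 0
  else Finset.univ.sup fun i => ((exists_primVec_rep z hz).choose_spec.choose i).natDegree

@[simp] theorem projHeight_zero : projHeight (0 : ι → RatFunc k) = 0 := dif_pos rfl

/-- The height can be computed from any primitive representative. -/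
theorem projHeight_eq_of_rep {z : ι → RatFunc k} {c : RatFunc k} {w : ι → k[X]} (hc : c ≠ 0)
    (hw : IsPrimVec w) (hz : ∀ i, z i = c * φ (w i)) :
    projHeight z = Finset.univ.sup fun i => (w i).natDegree := by
  have hz0 : z ≠ 0 := by
    intro h0
    obtain ⟨i, hi⟩ := hw.exists_ne_zero
    have h1 := hz i
    rw [h0, Pi.zero_apply, eq_comm, mul_eq_zero] at h1
    rcases h1 with h1 | h1
    · exact hc h1
    · exact hi ((map_eq_zero_iff _ (RatFunc.algebraMap_injective k)).1 h1)
  rw [projHeight, dif_neg hz0]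
  obtain ⟨hc', hw', hz'⟩ := (exists_primVec_rep z hz0).choose_spec.choose_spec
  set c' := (exists_primVec_rep z hz0).choose
  set w' := (exists_primVec_rep z hz0).choose_spec.choose
  -- clear denominators
  have hcn : c.num ≠ 0 := fun h => hc (RatFunc.num_eq_zero_iff.1 h)
  have hcn' : c'.num ≠ 0 := fun h => hc' (RatFunc.num_eq_zero_iff.1 h)
  have key : ∀ i, (c.num * c'.denom) * w i = (c'.num * c.denom) * w' i := by
    intro i
    apply RatFunc.algebraMap_injective k
    have h1 : c * φ (w i) = c' * φ (w' i) := (hz i).symm.trans (hz' i)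
    have hd : φ c.denom ≠ 0 :=
      (map_ne_zero_iff _ (RatFunc.algebraMap_injective k)).2 (RatFunc.denom_ne_zero _)
    have hd' : φ c'.denom ≠ 0 :=
      (map_ne_zero_iff _ (RatFunc.algebraMap_injective k)).2 (RatFunc.denom_ne_zero _)
    rw [← RatFunc.num_div_denom c, ← RatFunc.num_div_denom c'] at h1
    simp only [map_mul]
    field_simp at h1
    linear_combination h1
  congr 1
  funext i
  exact hw.natDegree_eq_of_mul_eq hw' (mul_ne_zero hcn (RatFunc.denom_ne_zero _))
    (mul_ne_zero hcn' (RatFunc.denom_ne_zero _)) key i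

end ProjHeight

section Basic

variable {k : Type*} [Field k] {ι : Type*} [Fintype ι]

local notation "φ" => algebraMap k[X] (RatFunc k)

theorem algebraMap_ne_zero' {a : k[X]} (ha : a ≠ 0) : φ a ≠ 0 :=
  (map_ne_zero_iff _ (RatFunc.algebraMap_injective k)).2 ha

/-- The height of (the image of) a primitive polynomial vector. -/
theorem projHeight_of_primVec {w : ι → k[X]} (hw : IsPrimVec w) :
    projHeight (fun i => φ (w i)) = Finset.univ.sup fun i => (w i).natDegree :=
  projHeight_eq_of_rep (c := 1) one_ne_zero hw fun _ => (one_mul _).symm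

/-- Scaling does not change the height. -/
theorem projHeight_smul {c : RatFunc k} (hc : c ≠ 0) (z : ι → RatFunc k) :
    projHeight (c • z) = projHeight z := by
  by_cases hz : z = 0
  · rw [hz, smul_zero]
  · obtain ⟨c', w, hc', hw, hzw⟩ := exists_primVec_rep z hz
    rw [projHeight_eq_of_rep hc' hw hzw,
      projHeight_eq_of_rep (c := c * c') (mul_ne_zero hc hc') hw fun i => by
        rw [Pi.smul_apply, smul_eq_mul, hzw i, mul_assoc]]

theorem projHeight_mul_left {c : RatFunc k} (hc : c ≠ 0) (z : ι → RatFunc k) :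
    projHeight (fun i => c * z i) = projHeight z :=
  projHeight_smul hc z

/-- Reindexing does not change the height. -/
theorem projHeight_comp_equiv {ι' : Type*} [Fintype ι'] (e : ι' ≃ ι) (z : ι → RatFunc k) :
    projHeight (z ∘ e) = projHeight z := by
  by_cases hz : z = 0
  · rw [hz]
    exact (projHeight_zero).trans projHeight_zero.symm
  · obtain ⟨c, w, hc, hw, hzw⟩ := exists_primVec_rep z hz
    have hw' : IsPrimVec (w ∘ e) := by
      intro d hd
      apply hw d
      intro i
      simpa using hd (e.symm i)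
    have h1 : projHeight (z ∘ e) = Finset.univ.sup fun i => ((w ∘ e) i).natDegree :=
      projHeight_eq_of_rep (w := w ∘ e) hc hw' fun i => hzw (e i)
    rw [projHeight_eq_of_rep hc hw hzw, h1]
    have := Finset.sup_map (Finset.univ : Finset ι') e.toEmbedding fun i => (w i).natDegree
    rw [Finset.map_univ_equiv] at this
    rw [this]
    rfl

omit [Fintype ι] in
/-- A vector with a unit entry is primitive. -/
theorem IsPrimVec.of_isUnit {w : ι → k[X]} {i : ι} (h : IsUnit (w i)) : IsPrimVec w :=
  fun _ hd => isUnit_of_dvd_unit (hd i) h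

/-- Constant vectors have height zero. -/
theorem projHeight_const (v : ι → k) :
    projHeight (fun i => algebraMap k (RatFunc k) (v i)) = 0 := by
  by_cases hv : v = 0
  · have : (fun i => algebraMap k (RatFunc k) (v i)) = 0 := by
      funext i
      simp [hv]
    rw [this, projHeight_zero]
  · obtain ⟨i, hi⟩ : ∃ i, v i ≠ 0 := by
      by_contra h
      push Not at h
      exact hv (funext h)
    have hw : IsPrimVec fun i => (C (v i) : k[X]) :=
      IsPrimVec.of_isUnit (i := i) (isUnit_C.2 (isUnit_iff_ne_zero.2 hi))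
    have : (fun i => algebraMap k (RatFunc k) (v i)) = fun i => φ (C (v i)) := by
      funext i
      rfl
    rw [this, projHeight_of_primVec hw]
    simp

end Basic

section RatHeight

variable {k : Type*} [Field k]

local notation "φ" => algebraMap k[X] (RatFunc k)

/-- The height of a rational function: the maximum of the degrees of its numerator and its
denominator (i.e. its degree as a map `ℙ¹ → ℙ¹`). -/
noncomputable def ratHeight (f : RatFunc k) : ℕ := max f.num.natDegree f.denom.natDegree

theorem isPrimVec_pair {a b : k[X]} (h : IsCoprime a b) : IsPrimVec ![a, b] := by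
  intro d hd
  exact h.isUnit_of_dvd' (hd 0) (hd 1)

theorem sup_univ_fin_two (f : Fin 2 → ℕ) : Finset.univ.sup f = max (f 0) (f 1) := by
  rw [Fin.univ_succ, Finset.sup_cons]
  simp

theorem sup_univ_fin_three (f : Fin 3 → ℕ) :
    Finset.univ.sup f = max (f 0) (max (f 1) (f 2)) := by
  rw [Fin.univ_succ, Finset.sup_cons, Finset.sup_map, Fin.univ_succ, Finset.sup_cons]
  simp

theorem projHeight_pair_of_isCoprime {a b : k[X]} (h : IsCoprime a b) {c : RatFunc k}
    (hc : c ≠ 0) : projHeight ![c * φ a, c * φ b] = max a.natDegree b.natDegree := by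
  rw [projHeight_eq_of_rep (w := ![a, b]) hc (isPrimVec_pair h), sup_univ_fin_two]
  · rfl
  · intro i
    fin_cases i <;> rfl

theorem projHeight_pair (f : RatFunc k) : projHeight ![f, 1] = ratHeight f := by
  have hd : φ f.denom ≠ 0 := algebraMap_ne_zero' (RatFunc.denom_ne_zero f)
  have := projHeight_pair_of_isCoprime (RatFunc.isCoprime_num_denom f) (inv_ne_zero hd)
  rw [ratHeight, ← this]
  congr 1
  have h1 : (φ f.denom)⁻¹ * φ f.num = f := by
    rw [mul_comm, ← div_eq_mul_inv, RatFunc.num_div_denom]
  rw [h1, inv_mul_cancel₀ hd]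

theorem projHeight_swap (a b : RatFunc k) : projHeight ![a, b] = projHeight ![b, a] := by
  have := projHeight_comp_equiv (Equiv.swap (0 : Fin 2) 1) ![b, a]
  rw [← this]
  congr 1
  funext i
  fin_cases i <;> simp

theorem projHeight_pair' (f : RatFunc k) : projHeight ![1, f] = ratHeight f := by
  rw [projHeight_swap, projHeight_pair]

theorem projHeight_one_zero : projHeight ![(1 : RatFunc k), 0] = 0 := by
  have h := projHeight_const (k := k) ![(1 : k), 0]
  have h2 : ![(1 : RatFunc k), 0] = fun i => algebraMap k (RatFunc k) (![(1 : k), 0] i) := by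
    funext i
    fin_cases i <;> simp
  rw [h2, h]

theorem projHeight_pair_zero (a : RatFunc k) : projHeight ![a, 0] = 0 := by
  by_cases ha : a = 0
  · have : ![a, 0] = 0 := by
      funext i
      fin_cases i <;> simp [ha]
    rw [this, projHeight_zero]
  · have : ![a, 0] = a • ![(1 : RatFunc k), 0] := by
      funext i
      fin_cases i <;> simp
    rw [this, projHeight_smul ha, projHeight_one_zero]

/-- The height of the point `(a : b)` with `b ≠ 0` is the height of the quotient `a / b`. -/
theorem projHeight_pair_eq_ratHeight_div (a : RatFunc k) {b : RatFunc k} (hb : b ≠ 0) :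
    projHeight ![a, b] = ratHeight (a / b) := by
  have : ![a, b] = b • ![a / b, 1] := by
    funext i
    fin_cases i
    · simp [mul_div_cancel₀ _ hb]
    · simp
  rw [this, projHeight_smul hb, projHeight_pair]

theorem ratHeight_div_of_isCoprime {a b : k[X]} (hb : b ≠ 0) (h : IsCoprime a b) :
    ratHeight (φ a / φ b) = max a.natDegree b.natDegree := by
  have hb' : φ b ≠ 0 := algebraMap_ne_zero' hb
  rw [← projHeight_pair, ← projHeight_pair_of_isCoprime h (inv_ne_zero hb')]
  congr 1
  rw [inv_mul_cancel₀ hb', div_eq_mul_inv, mul_comm]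

theorem ratHeight_zero : ratHeight (0 : RatFunc k) = 0 := by
  simp [ratHeight]

theorem ratHeight_C (c : k) : ratHeight (RatFunc.C c) = 0 := by
  simp [ratHeight]

theorem ratHeight_X : ratHeight (RatFunc.X : RatFunc k) = 1 := by
  simp [ratHeight]

theorem ratHeight_eq_zero_iff (f : RatFunc k) : ratHeight f = 0 ↔ ∃ c : k, f = RatFunc.C c := by
  constructor
  · intro h
    have h1 : f.num.natDegree = 0 := Nat.eq_zero_of_le_zero ((le_max_left _ _).trans h.le)
    have h2 : f.denom.natDegree = 0 := Nat.eq_zero_of_le_zero ((le_max_right _ _).trans h.le)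
    have h3 : f.denom = 1 := by
      have hm := RatFunc.monic_denom f
      rw [eq_C_of_natDegree_eq_zero h2] at hm ⊢
      rw [Monic, leadingCoeff_C] at hm
      rw [hm, C_1]
    refine ⟨f.num.coeff 0, ?_⟩
    have h4 := RatFunc.num_div_denom f
    rw [h3, map_one, div_one, eq_C_of_natDegree_eq_zero h1] at h4
    rw [← h4]
    simp
  · rintro ⟨c, rfl⟩
    exact ratHeight_C c

theorem ratHeight_inv (f : RatFunc k) : ratHeight f⁻¹ = ratHeight f := by
  by_cases hf : f = 0
  · rw [hf, inv_zero]
  · have hn : f.num ≠ 0 := fun h => hf (RatFunc.num_eq_zero_iff.1 h)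
    have h1 : f⁻¹ = φ f.denom / φ f.num := by
      conv_lhs => rw [← RatFunc.num_div_denom f]
      rw [inv_div]
    rw [h1, ratHeight_div_of_isCoprime hn (RatFunc.isCoprime_num_denom f).symm, ratHeight,
      max_comm]

theorem ratHeight_pow (f : RatFunc k) (n : ℕ) : ratHeight (f ^ n) = n * ratHeight f := by
  have h1 : f ^ n = φ (f.num ^ n) / φ (f.denom ^ n) := by
    conv_lhs => rw [← RatFunc.num_div_denom f]
    rw [div_pow, map_pow, map_pow]
  rw [h1, ratHeight_div_of_isCoprime (pow_ne_zero n (RatFunc.denom_ne_zero f))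
    ((RatFunc.isCoprime_num_denom f).pow), natDegree_pow, natDegree_pow, ratHeight,
    Nat.mul_max_mul_left]

end RatHeight

section Top

variable {k : Type*} [Field k]

/-- `f` has degree at most `e` and its coefficient of `X ^ e` is `t`. -/
def HasTop (f : k[X]) (e : ℕ) (t : k) : Prop := f.natDegree ≤ e ∧ f.coeff e = t

theorem HasTop.const (a : k) : HasTop (C a) 0 a := ⟨by simp, by simp⟩

theorem HasTop.one : HasTop (1 : k[X]) 0 1 := ⟨by simp, by simp⟩

theorem HasTop.zero (e : ℕ) : HasTop (0 : k[X]) e 0 := ⟨by simp, by simp⟩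

theorem HasTop.mul {f g : k[X]} {e₁ e₂ : ℕ} {t₁ t₂ : k} (hf : HasTop f e₁ t₁)
    (hg : HasTop g e₂ t₂) : HasTop (f * g) (e₁ + e₂) (t₁ * t₂) :=
  ⟨natDegree_mul_le_of_le hf.1 hg.1, by
    rw [coeff_mul_add_eq_of_natDegree_le hf.1 hg.1, hf.2, hg.2]⟩

theorem HasTop.pow {f : k[X]} {e : ℕ} {t : k} (hf : HasTop f e t) (n : ℕ) :
    HasTop (f ^ n) (n * e) (t ^ n) := by
  induction n with
  | zero => simpa using HasTop.one
  | succ n ih =>
    rw [pow_succ, pow_succ, Nat.succ_mul]
    exact ih.mul hf

theorem HasTop.prod {ι : Type*} (s : Finset ι) {f : ι → k[X]} {e : ι → ℕ} {t : ι → k}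
    (h : ∀ i ∈ s, HasTop (f i) (e i) (t i)) :
    HasTop (∏ i ∈ s, f i) (∑ i ∈ s, e i) (∏ i ∈ s, t i) := by
  classical
  induction s using Finset.induction_on with
  | empty => simpa using HasTop.one
  | insert a s ha ih =>
    rw [Finset.prod_insert ha, Finset.sum_insert ha, Finset.prod_insert ha]
    exact (h a (Finset.mem_insert_self a s)).mul
      (ih fun i hi => h i (Finset.mem_insert_of_mem hi))

theorem HasTop.add {f g : k[X]} {e : ℕ} {t₁ t₂ : k} (hf : HasTop f e t₁) (hg : HasTop g e t₂) :
    HasTop (f + g) e (t₁ + t₂) :=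
  ⟨natDegree_add_le_of_degree_le hf.1 hg.1, by rw [coeff_add, hf.2, hg.2]⟩

theorem HasTop.sum {ι : Type*} (s : Finset ι) {f : ι → k[X]} {e : ℕ} {t : ι → k}
    (h : ∀ i ∈ s, HasTop (f i) e (t i)) : HasTop (∑ i ∈ s, f i) e (∑ i ∈ s, t i) := by
  classical
  induction s using Finset.induction_on with
  | empty => simpa using HasTop.zero e
  | insert a s ha ih =>
    rw [Finset.sum_insert ha, Finset.sum_insert ha]
    exact (h a (Finset.mem_insert_self a s)).add
      (ih fun i hi => h i (Finset.mem_insert_of_mem hi))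

theorem HasTop.natDegree_eq {f : k[X]} {e : ℕ} {t : k} (hf : HasTop f e t) (ht : t ≠ 0) :
    f.natDegree = e :=
  le_antisymm hf.1 (le_natDegree_of_ne_zero (by rw [hf.2]; exact ht))

variable {ι : Type*} [Fintype ι]

/-- The maximal degree of the entries of a polynomial vector. -/
def maxDeg (w : ι → k[X]) : ℕ := Finset.univ.sup fun i => (w i).natDegree

/-- The vector of coefficients of `X ^ maxDeg w`. -/
def leadVec (w : ι → k[X]) : ι → k := fun i => (w i).coeff (maxDeg w)

theorem natDegree_le_maxDeg (w : ι → k[X]) (i : ι) : (w i).natDegree ≤ maxDeg w :=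
  Finset.le_sup (f := fun i => (w i).natDegree) (Finset.mem_univ i)

theorem hasTop_leadVec (w : ι → k[X]) (i : ι) : HasTop (w i) (maxDeg w) (leadVec w i) :=
  ⟨natDegree_le_maxDeg w i, rfl⟩

theorem leadVec_ne_zero {w : ι → k[X]} (hw : w ≠ 0) : leadVec w ≠ 0 := by
  obtain ⟨i₁, hi₁⟩ : ∃ i, w i ≠ 0 := by
    by_contra h
    push Not at h
    exact hw (funext h)
  have hne : (Finset.univ : Finset ι).Nonempty := ⟨i₁, Finset.mem_univ _⟩
  obtain ⟨i₀, -, hi₀⟩ := Finset.exists_mem_eq_sup Finset.univ hne fun i => (w i).natDegree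
  intro h0
  by_cases hw0 : w i₀ = 0
  · -- then all degrees are zero
    have hm : maxDeg w = 0 := by
      rw [maxDeg, hi₀, hw0, natDegree_zero]
    have h1 : (w i₁).natDegree = 0 := Nat.eq_zero_of_le_zero (hm ▸ natDegree_le_maxDeg w i₁)
    have h2 := congrFun h0 i₁
    rw [leadVec, hm, Pi.zero_apply] at h2
    apply hi₁
    rw [eq_C_of_natDegree_eq_zero h1, h2, C_0]
  · have h2 := congrFun h0 i₀
    rw [leadVec, maxDeg, hi₀, Pi.zero_apply] at h2
    exact hw0 (leadingCoeff_eq_zero.1 h2)

theorem maxDeg_eq_of_hasTop {v : ι → k[X]} {e : ℕ} {t : ι → k} (h : ∀ i, HasTop (v i) e (t i))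
    (ht : t ≠ 0) : maxDeg v = e := by
  obtain ⟨i, hi⟩ : ∃ i, t i ≠ 0 := by
    by_contra h
    push Not at h
    exact ht (funext h)
  apply le_antisymm
  · exact Finset.sup_le fun j _ => (h j).1
  · rw [← (h i).natDegree_eq hi]
    exact natDegree_le_maxDeg v i

theorem projHeight_eq_maxDeg {z : ι → RatFunc k} {c : RatFunc k} {w : ι → k[X]} (hc : c ≠ 0)
    (hw : IsPrimVec w) (hz : ∀ i, z i = c * algebraMap k[X] (RatFunc k) (w i)) :
    projHeight z = maxDeg w :=
  projHeight_eq_of_rep hc hw hz

/-- Evaluating a homogeneous polynomial of degree `N` at a polynomial vector of degree `≤ m`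
gives a polynomial of degree `≤ N * m` whose top coefficient is the value at the vector of
top coefficients. -/
theorem hasTop_aeval {w : ι → k[X]} {m : ℕ} {l : ι → k} (hw : ∀ i, HasTop (w i) m (l i))
    {P : MvPolynomial ι k} {N : ℕ} (hP : P.IsHomogeneous N) :
    HasTop (MvPolynomial.aeval w P) (N * m) (MvPolynomial.eval l P) := by
  rw [MvPolynomial.aeval_def, MvPolynomial.eval₂_eq', MvPolynomial.eval_eq']
  apply HasTop.sum
  intro d hd
  have hN : ∑ i, d i = N := by
    rw [hP.degree_eq_sum_deg_support hd]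
    exact (Finset.sum_subset (Finset.subset_univ _)
      (fun i _ hi => Finsupp.notMem_support_iff.1 hi)).symm
  have h1 : HasTop (∏ i, w i ^ d i) (∑ i, d i * m) (∏ i, l i ^ d i) :=
    HasTop.prod Finset.univ fun i _ => (hw i).pow (d i)
  rw [← Finset.sum_mul, hN] at h1
  have h2 := (HasTop.const (MvPolynomial.coeff d P)).mul h1
  rw [zero_add] at h2
  exact h2

end Top

section Gauss

variable {k : Type*} [Field k]

local notation "φ" => algebraMap k[X] (RatFunc k)

theorem isPrimitive_linear_of_isPrimVec {a b : k[X]} (h : IsPrimVec ![a, b]) :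
    (C a * X + C b : k[X][X]).IsPrimitive := by
  rw [isPrimitive_iff_isUnit_of_C_dvd]
  intro r hr
  rw [C_dvd_iff_dvd_coeff] at hr
  apply h r
  intro i
  fin_cases i
  · have := hr 1
    simpa using this
  · have := hr 0
    simpa using this

/-- Gauss' lemma: the coefficient vector of the product of two primitive linear forms is
primitive. -/
theorem isPrimVec_sym2 {a b c d : k[X]} (h1 : IsPrimVec ![a, b]) (h2 : IsPrimVec ![c, d]) :
    IsPrimVec ![a * c, a * d + b * c, b * d] := by
  classical
  let _ : NormalizedGCDMonoid k[X] := UniqueFactorizationMonoid.toNormalizedGCDMonoid _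
  have hP := (isPrimitive_linear_of_isPrimVec h1).mul (isPrimitive_linear_of_isPrimVec h2)
  have hexp : (C a * X + C b : k[X][X]) * (C c * X + C d) =
      C (a * c) * X ^ 2 + C (a * d + b * c) * X + C (b * d) := by
    simp only [map_add, map_mul]
    ring
  rw [hexp, isPrimitive_iff_isUnit_of_C_dvd] at hP
  intro r hr
  apply hP r
  have d0 : r ∣ a * c := hr 0
  have d1 : r ∣ a * d + b * c := hr 1
  have d2 : r ∣ b * d := hr 2
  have D0 : (C r : k[X][X]) ∣ C (a * c) := _root_.map_dvd C d0
  have D1 : (C r : k[X][X]) ∣ C (a * d + b * c) := _root_.map_dvd C d1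
  have D2 : (C r : k[X][X]) ∣ C (b * d) := _root_.map_dvd C d2
  exact dvd_add (dvd_add (dvd_mul_of_dvd_left D0 _) (dvd_mul_of_dvd_left D1 _)) D2

theorem vec_eq_pair {α : Type*} (w : Fin 2 → α) : w = ![w 0, w 1] := by
  funext i
  fin_cases i <;> rfl

/-- The exact Gauss lemma for heights: the height of the product of two linear forms
is the sum of the heights. -/
theorem projHeight_sym2 {a b c d : RatFunc k} (hab : ![a, b] ≠ 0) (hcd : ![c, d] ≠ 0) :
    projHeight ![a * c, a * d + b * c, b * d] = projHeight ![a, b] + projHeight ![c, d] := by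
  obtain ⟨c₁, w₁, hc₁, hw₁, hz₁⟩ := exists_primVec_rep _ hab
  obtain ⟨c₂, w₂, hc₂, hw₂, hz₂⟩ := exists_primVec_rep _ hcd
  have ha : a = c₁ * φ (w₁ 0) := hz₁ 0
  have hb : b = c₁ * φ (w₁ 1) := hz₁ 1
  have hc : c = c₂ * φ (w₂ 0) := hz₂ 0
  have hd : d = c₂ * φ (w₂ 1) := hz₂ 1
  have hw₁' : IsPrimVec ![w₁ 0, w₁ 1] := by rw [← vec_eq_pair w₁]; exact hw₁
  have hw₂' : IsPrimVec ![w₂ 0, w₂ 1] := by rw [← vec_eq_pair w₂]; exact hw₂
  have hprim := isPrimVec_sym2 hw₁' hw₂'
  set W : Fin 3 → k[X] := ![w₁ 0 * w₂ 0, w₁ 0 * w₂ 1 + w₁ 1 * w₂ 0, w₁ 1 * w₂ 1] with hW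
  have hrep : ∀ i, ![a * c, a * d + b * c, b * d] i = (c₁ * c₂) * φ (W i) := by
    intro i
    fin_cases i
    · simp only [hW, ha, hc, Fin.zero_eta, Matrix.cons_val_zero, map_mul]
      ring
    · simp only [hW, ha, hb, hc, hd, Fin.mk_one, Matrix.cons_val_one, Matrix.cons_val_zero,
        map_mul, map_add]
      ring
    · simp only [hW, hb, hd, Fin.reduceFinMk, Matrix.cons_val, map_mul]
      ring
  rw [projHeight_eq_maxDeg (mul_ne_zero hc₁ hc₂) hprim hrep, projHeight_eq_maxDeg hc₁ hw₁ hz₁,
    projHeight_eq_maxDeg hc₂ hw₂ hz₂]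
  -- degrees
  set l₁ := leadVec w₁ with hl₁
  set l₂ := leadVec w₂ with hl₂
  have hl₁0 : l₁ ≠ 0 := leadVec_ne_zero hw₁.ne_zero
  have hl₂0 : l₂ ≠ 0 := leadVec_ne_zero hw₂.ne_zero
  have t₁ := hasTop_leadVec w₁
  have t₂ := hasTop_leadVec w₂
  have htop : ∀ i, HasTop (W i) (maxDeg w₁ + maxDeg w₂)
      (![l₁ 0 * l₂ 0, l₁ 0 * l₂ 1 + l₁ 1 * l₂ 0, l₁ 1 * l₂ 1] i) := by
    intro i
    fin_cases i
    · exact (t₁ 0).mul (t₂ 0)
    · exact ((t₁ 0).mul (t₂ 1)).add ((t₁ 1).mul (t₂ 0))
    · exact (t₁ 1).mul (t₂ 1)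
  apply maxDeg_eq_of_hasTop htop
  intro h0
  have e0 : l₁ 0 * l₂ 0 = 0 := congrFun h0 0
  have e1 : l₁ 0 * l₂ 1 + l₁ 1 * l₂ 0 = 0 := congrFun h0 1
  have e2 : l₁ 1 * l₂ 1 = 0 := congrFun h0 2
  by_cases h10 : l₁ 0 = 0
  · have h11 : l₁ 1 ≠ 0 := by
      intro h11
      apply hl₁0
      funext i
      fin_cases i
      · exact h10
      · exact h11
    have h21 : l₂ 1 = 0 := (mul_eq_zero.1 e2).resolve_left h11
    rw [h10, zero_mul, zero_add] at e1
    have h20 : l₂ 0 = 0 := (mul_eq_zero.1 e1).resolve_left h11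
    apply hl₂0
    funext i
    fin_cases i
    · exact h20
    · exact h21
  · have h20 : l₂ 0 = 0 := (mul_eq_zero.1 e0).resolve_left h10
    rw [h20, mul_zero, add_zero] at e1
    have h21 : l₂ 1 = 0 := (mul_eq_zero.1 e1).resolve_left h10
    apply hl₂0
    funext i
    fin_cases i
    · exact h20
    · exact h21

/-- `projHeight_sym2` for vectors given as functions on `Fin 2`. -/
theorem projHeight_sym2' (a b : Fin 2 → RatFunc k) (ha : a ≠ 0) (hb : b ≠ 0) :
    projHeight ![a 0 * b 0, a 0 * b 1 + a 1 * b 0, a 1 * b 1] = projHeight a + projHeight b := by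
  have ha' : ![a 0, a 1] ≠ 0 := by rw [← vec_eq_pair a]; exact ha
  have hb' : ![b 0, b 1] ≠ 0 := by rw [← vec_eq_pair b]; exact hb
  rw [projHeight_sym2 ha' hb', ← vec_eq_pair a, ← vec_eq_pair b]

end Gauss

section Morphism

variable {k : Type*} [Field k] {ι ι' : Type*} [Fintype ι] [Fintype ι']

local notation "φ" => algebraMap k[X] (RatFunc k)

omit [Fintype ι] in
/-- If all `w i ^ e` are linear combinations of the `W j` and `w` is primitive, then so is `W`. -/
theorem IsPrimVec.of_cert {w : ι → k[X]} (hw : IsPrimVec w) {W : ι' → k[X]} {e : ℕ}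
    (A : ι → ι' → k[X]) (h : ∀ i, ∑ j, A i j * W j = w i ^ e) : IsPrimVec W := by
  intro d hd
  have h1 : ∀ i, d ∣ w i ^ e := fun i =>
    h i ▸ Finset.dvd_sum fun j _ => dvd_mul_of_dvd_right (hd j) _
  by_contra hu
  have hd0 : d ≠ 0 := by
    rintro rfl
    obtain ⟨i, hi⟩ := hw.exists_ne_zero
    have h2 : w i ^ e = 0 := zero_dvd_iff.1 (h1 i)
    rcases Nat.eq_zero_or_pos e with he | he
    · rw [he, pow_zero] at h2
      exact one_ne_zero h2
    · exact hi ((pow_eq_zero_iff he.ne').1 h2)
  obtain ⟨π, hπ, hπd⟩ := WfDvdMonoid.exists_irreducible_factor hu hd0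
  have hp : Prime π := hπ.prime
  exact hπ.not_isUnit (hw π fun i => hp.dvd_of_dvd_pow (hπd.trans (h1 i)))

/-- Homogeneity: scaling the point scales the value by the `N`-th power. -/
theorem aeval_mul_of_isHomogeneous {A : Type*} [CommRing A] [Algebra k A]
    {P : MvPolynomial ι k} {N : ℕ} (hP : P.IsHomogeneous N) (c : A) (y : ι → A) :
    MvPolynomial.aeval (fun i => c * y i) P = c ^ N * MvPolynomial.aeval y P := by
  rw [MvPolynomial.aeval_def, MvPolynomial.eval₂_eq', MvPolynomial.aeval_def,
    MvPolynomial.eval₂_eq', Finset.mul_sum]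
  apply Finset.sum_congr rfl
  intro d hd
  have hN : ∑ i, d i = N := by
    rw [hP.degree_eq_sum_deg_support hd]
    exact (Finset.sum_subset (Finset.subset_univ _)
      (fun i _ hi => Finsupp.notMem_support_iff.1 hi)).symm
  simp only [mul_pow, Finset.prod_mul_distrib, Finset.prod_pow_eq_pow_sum, hN]
  ring

/-- **Exact behaviour of the height under a morphism.**  If `p` is a family of homogeneous
polynomials of degree `N` over `k` without common zero, in the sense that there is a
certificate `∑ j, q (i, j) * p j = X i ^ e` with coefficients `q (i, j)` over `k`,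
then `projHeight (p z) = N * projHeight z`. -/
theorem projHeight_eval_eq_of_cert {N e : ℕ} (p : ι' → MvPolynomial ι k)
    (hp : ∀ j, (p j).IsHomogeneous N) (q : ι × ι' → MvPolynomial ι k)
    (h : ∀ i, ∑ j, q (i, j) * p j = MvPolynomial.X i ^ e) (z : ι → RatFunc k) :
    projHeight (fun j => MvPolynomial.aeval z (p j)) = N * projHeight z := by
  by_cases hz : z = 0
  · subst hz
    simp only [MvPolynomial.aeval_zero, projHeight_zero, mul_zero]
    exact projHeight_const fun j => MvPolynomial.constantCoeff (p j)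
  obtain ⟨c, w, hc, hw, hzw⟩ := exists_primVec_rep z hz
  set W : ι' → k[X] := fun j => MvPolynomial.aeval w (p j) with hW
  -- the certificate evaluated at `w`
  have hcertw : ∀ i, ∑ j, MvPolynomial.aeval w (q (i, j)) * W j = w i ^ e := by
    intro i
    have := congrArg (MvPolynomial.aeval w) (h i)
    simpa only [map_sum, map_mul, map_pow, MvPolynomial.aeval_X] using this
  have hWprim : IsPrimVec W := hw.of_cert (fun i j => MvPolynomial.aeval w (q (i, j))) hcertw
  -- the representation of the image vector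
  have hrep : ∀ j, MvPolynomial.aeval z (p j) = c ^ N * φ (W j) := by
    intro j
    have hz' : z = fun i => c * φ (w i) := funext hzw
    rw [hz', aeval_mul_of_isHomogeneous (hp j)]
    congr 1
    have := MvPolynomial.comp_aeval_apply (f := w) (IsScalarTower.toAlgHom k k[X] (RatFunc k))
      (p j)
    simpa only [IsScalarTower.coe_toAlgHom'] using this.symm
  rw [projHeight_eq_maxDeg (pow_ne_zero N hc) hWprim hrep, projHeight_eq_maxDeg hc hw hzw]
  -- the degrees
  have htop : ∀ j, HasTop (W j) (N * maxDeg w) (MvPolynomial.eval (leadVec w) (p j)) :=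
    fun j => hasTop_aeval (hasTop_leadVec w) (hp j)
  apply maxDeg_eq_of_hasTop htop
  intro h0
  apply leadVec_ne_zero hw.ne_zero
  funext i
  have h1 := congrArg (MvPolynomial.eval (leadVec w)) (h i)
  simp only [map_sum, map_mul, map_pow, MvPolynomial.eval_X] at h1
  have h2 : ∑ j, MvPolynomial.eval (leadVec w) (q (i, j)) *
      MvPolynomial.eval (leadVec w) (p j) = 0 :=
    Finset.sum_eq_zero fun j _ => by
      have := congrFun h0 j
      simp only [Pi.zero_apply] at this
      rw [this, mul_zero]
  rw [h2] at h1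
  rcases Nat.eq_zero_or_pos e with he | he
  · rw [he, pow_zero] at h1
    exact absurd h1 zero_ne_one
  · exact (pow_eq_zero_iff he.ne').1 h1.symm

end Morphism

section MorphismVariants

variable {k : Type*} [Field k] {ι ι' : Type*} [Fintype ι] [Fintype ι']

omit [Fintype ι] [Fintype ι'] in
theorem infinite_ratFunc : Infinite (RatFunc k) :=
  Infinite.of_injective (algebraMap k[X] (RatFunc k)) (RatFunc.algebraMap_injective k)

/-- Version of `projHeight_eval_eq_of_cert` where the certificate is only assumed pointwise over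
`RatFunc k`. -/
theorem projHeight_eval_eq_of_forall_aeval {N e : ℕ} (p : ι' → MvPolynomial ι k)
    (hp : ∀ j, (p j).IsHomogeneous N) (q : ι × ι' → MvPolynomial ι k)
    (h : ∀ (x : ι → RatFunc k) (i : ι),
      ∑ j, MvPolynomial.aeval x (q (i, j)) * MvPolynomial.aeval x (p j) = x i ^ e)
    (z : ι → RatFunc k) :
    projHeight (fun j => MvPolynomial.aeval z (p j)) = N * projHeight z := by
  have : Infinite (RatFunc k) := infinite_ratFunc
  refine projHeight_eval_eq_of_cert (e := e) p hp q (fun i => ?_) z
  apply MvPolynomial.map_injective _ (algebraMap k (RatFunc k)).injective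
  apply MvPolynomial.funext
  intro x
  have := h x i
  simp only [MvPolynomial.aeval_def] at this
  simpa only [MvPolynomial.eval_map, MvPolynomial.eval₂_sum, MvPolynomial.eval₂_mul,
    MvPolynomial.eval₂_pow, MvPolynomial.eval₂_X] using this

/-- Version of `projHeight_eval_eq_of_cert` over an infinite field `k` where the certificate is
only assumed at `k`-points (this is the form of Mathlib's
`WeierstrassCurve.addSubMapCoeff_condition`). -/
theorem projHeight_eval_eq_of_forall_eval [Infinite k] {N e : ℕ} (p : ι' → MvPolynomial ι k)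
    (hp : ∀ j, (p j).IsHomogeneous N) (q : ι × ι' → MvPolynomial ι k)
    (h : ∀ (x : ι → k) (i : ι),
      ∑ j, MvPolynomial.eval x (q (i, j)) * MvPolynomial.eval x (p j) = x i ^ e)
    (z : ι → RatFunc k) :
    projHeight (fun j => MvPolynomial.aeval z (p j)) = N * projHeight z := by
  refine projHeight_eval_eq_of_cert (e := e) p hp q (fun i => ?_) z
  apply MvPolynomial.funext
  intro x
  simpa only [map_sum, map_mul, map_pow, MvPolynomial.eval_X] using h x i

/-- The version with the signature of the `P-ELL` plan. -/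
theorem projHeight_eval_eq {M N : ℕ} (p : ι' → MvPolynomial ι k)
    (hp : ∀ j, (p j).IsHomogeneous N) (q : ι × ι' → MvPolynomial ι k)
    (_hq : ∀ a, (q a).IsHomogeneous M)
    (h : ∀ (x : ι → RatFunc k) (i : ι),
      ∑ j, MvPolynomial.aeval x (q (i, j)) * MvPolynomial.aeval x (p j) = x i ^ (M + N))
    (z : ι → RatFunc k) :
    projHeight (fun j => MvPolynomial.aeval z (p j)) = N * projHeight z :=
  projHeight_eval_eq_of_forall_aeval p hp q h z

end MorphismVariants

section Poles

variable {k : Type*} [Field k]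

/-- Over an algebraically closed field, the height of a rational function is the number of its
poles, counted with multiplicity, including the pole at infinity. -/
theorem ratHeight_eq_sum_poles [IsAlgClosed k] [DecidableEq k] (f : RatFunc k) :
    ratHeight f = (∑ x₀ ∈ f.denom.roots.toFinset, f.denom.rootMultiplicity x₀) +
      (f.num.natDegree - f.denom.natDegree) := by
  have h1 : f.denom.natDegree = ∑ x₀ ∈ f.denom.roots.toFinset, f.denom.rootMultiplicity x₀ := by
    rw [(IsAlgClosed.splits f.denom).natDegree_eq_card_roots, ← Multiset.toFinset_sum_count_eq]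
    exact Finset.sum_congr rfl fun x _ => count_roots f.denom
  rw [← h1, ratHeight]
  omega

end Poles

end Fermat.Agent.Lib.EC
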